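import Fermat.Agent.LT.A2.H54.LocFinSpec

/-!
# Row LT, tower A2, leaf A2.03.1.1.06.18 `LF54.LeafAxWeyl` (helper286)

OFF-MAIN.  The field `weyl` of `LocAx` for the family `Fof Φ`.

`d(δ)⁻¹ w = t(δ) w d(δ)⁻¹` (`δ = det m`), the left rules of `t(δ)` and of `w`, `η(δ) = 1`,
and the change of variables `y = m z` with `B(ξ, m z) = B(δ m⁻¹ ξ, z)` for `m` in the torus.

The function `z ↦ f(z) ψ(B(ξ', z))` is Schwartz--Bruhat for a Schwartz--Bruhat `f`: no local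
constancy of `ψ` is used, only `rOp 1 = id`, the left rule of `n(x)` and `RopSbP`
(`ψ(B(ξ', z)) = ψ(Q(z + ξ')) ψ(-Q(ξ')) ψ(-Q(z))`, translations).  The proof is valid over any
normed field.
-/

set_option autoImplicit false

open IsDedekindDomain NumberField MeasureTheory
open scoped Topology

noncomputable section

namespace Fermat.Agent.LT.A2.H286

open Fermat.Agent.LT.A2 Fermat.Agent.LT.A2.WX467 Fermat.Agent.LT.A2.LF54

section General

variable {k : Type} [NormedField k]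

/-- Translations preserve Schwartz--Bruhat functions. -/
theorem isSB_comp_add286 (f : k × k → ℂ) (hf : IsSB f) (a : k × k) :
    IsSB (fun z => f (z + a)) := by
  refine ⟨hf.1.comp_continuous (continuous_id.add continuous_const), ?_⟩
  exact hf.2.comp_homeomorph (Homeomorph.addRight a)

/-- Constant multiples of Schwartz--Bruhat functions. -/
theorem isSB_const_mul286 (f : k × k → ℂ) (hf : IsSB f) (c : ℂ) :
    IsSB (fun z => c * f z) := by
  refine ⟨hf.1.comp (fun w => c * w), ?_⟩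
  exact HasCompactSupport.mul_left (f := fun _ => c) hf.2

/-- `ψ(x Q) · f` is Schwartz--Bruhat (left rule of `n(x)`, `rOp 1 = id`, `RopSbP`). -/
theorem isSB_psiQ_mul286 (t n : k) (ψ : k → ℂ) (μ : @Measure k (borel k)) (γ : ℂ) (η : k → ℂ)
    (hB : BorelOpP t n ψ μ γ η) (hS : RopSbP t n ψ μ γ η) (x : k)
    (f : k × k → ℂ) (hf : IsSB f) :
    IsSB (fun ξ => ψ (x * qfL t n ξ) * f ξ) := by
  have h1 : (!![1, x; 0, 1] * (1 : Matrix (Fin 2) (Fin 2) k)).det = 1 := by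
    simp [Matrix.det_fin_two]
  have h2 := hS (!![1, x; 0, 1] * 1) h1 f hf
  have e : rOp t n ψ μ γ η (!![1, x; 0, 1] * 1) f = fun ξ => ψ (x * qfL t n ξ) * f ξ := by
    funext ξ
    rw [hB.unip x 1 Matrix.det_one f hf ξ, hB.one f hf]
  rwa [e] at h2

/-- `f · ψ(B(ξ', ·))` is Schwartz--Bruhat. -/
theorem isSB_mul_psiB286 (t n : k) (ψ : k → ℂ) (μ : @Measure k (borel k)) (γ : ℂ) (η : k → ℂ)
    (hψ : ∀ x y : k, ψ (x + y) = ψ x * ψ y)
    (hB : BorelOpP t n ψ μ γ η) (hS : RopSbP t n ψ μ γ η) (ξ' : k × k)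
    (f : k × k → ℂ) (hf : IsSB f) :
    IsSB (fun z => f z * ψ (bfL t n ξ' z)) := by
  have h1 := isSB_psiQ_mul286 t n ψ μ γ η hB hS (-1) f hf
  have h2 := isSB_comp_add286 _ h1 (-ξ')
  have h3 := isSB_psiQ_mul286 t n ψ μ γ η hB hS 1 _ h2
  have h4 := isSB_comp_add286 _ h3 ξ'
  have h5 := isSB_const_mul286 _ h4 (ψ (-(qfL t n ξ')))
  have e : (fun z => f z * ψ (bfL t n ξ' z))
      = fun z => ψ (-(qfL t n ξ')) *
          (ψ (1 * qfL t n (z + ξ')) * (ψ (-1 * qfL t n (z + ξ' + -ξ')) * f (z + ξ' + -ξ'))) := by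
    funext z
    have hz : z + ξ' + -ξ' = z := by abel
    have hb : bfL t n ξ' z = -(qfL t n ξ') + (1 * qfL t n (z + ξ') + -1 * qfL t n z) := by
      unfold bfL
      rw [add_comm ξ' z]
      ring
    rw [hz, hb, hψ, hψ]
    ring
  rw [e]
  exact h5

/-- `intL` of a constant multiple. -/
theorem intL_const_mul286 (μ : @Measure k (borel k)) (c : ℂ) (f : k × k → ℂ) :
    intL μ (fun y => c * f y) = c * intL μ f := by
  unfold intL
  exact integral_const_mul c f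

/-- The inverse of an invertible `2 × 2` matrix, acting on pairs. -/
theorem actL_inv286 (m : Matrix (Fin 2) (Fin 2) k) (ξ : k × k) :
    actL m⁻¹ ξ = ((m.det)⁻¹ * (m 1 1 * ξ.1 - m 0 1 * ξ.2),
      (m.det)⁻¹ * (-(m 1 0) * ξ.1 + m 0 0 * ξ.2)) := by
  unfold actL
  rw [Matrix.inv_def, Ring.inverse_eq_inv', Matrix.adjugate_fin_two]
  simp only [Matrix.smul_apply, Matrix.of_apply, Matrix.cons_val', Matrix.cons_val_zero,
    Matrix.cons_val_one, Matrix.cons_val_fin_one, smul_eq_mul]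
  ext <;> simp <;> ring

/-- `m (m⁻¹ y) = y`. -/
theorem actL_actL_inv286 (m : Matrix (Fin 2) (Fin 2) k) (hm : m.det ≠ 0) (y : k × k) :
    actL m (actL m⁻¹ y) = y := by
  rw [actL_inv286]
  have hd : m.det = m 0 0 * m 1 1 - m 0 1 * m 1 0 := Matrix.det_fin_two m
  unfold actL
  ext
  · simp only
    field_simp
    rw [hd]
    ring
  · simp only
    field_simp
    rw [hd]
    ring

/-- The adjoint of a torus matrix for `B`: `B(ξ, m z) = B(adj(m) ξ, z)`. -/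
theorem bfL_tor_adj286 (t n a b : k) (ξ z : k × k) :
    bfL t n ξ (actL (torMat t n a b) z)
      = bfL t n ((a + t * b) * ξ.1 + n * b * ξ.2, -b * ξ.1 + a * ξ.2) z := by
  simp only [bfL, qfL, actL, torMat, Prod.fst_add, Prod.snd_add, Matrix.of_apply,
    Matrix.cons_val', Matrix.cons_val_zero, Matrix.cons_val_one, Matrix.cons_val_fin_one]
  ring

/-- `δ • m⁻¹ ξ = adj(m) ξ` for a torus matrix. -/
theorem smul_actL_inv_tor286 (t n a b : k) (hδ : (torMat t n a b).det ≠ 0) (ξ : k × k) :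
    (torMat t n a b).det • actL (torMat t n a b)⁻¹ ξ
      = ((a + t * b) * ξ.1 + n * b * ξ.2, -b * ξ.1 + a * ξ.2) := by
  rw [actL_inv286]
  have hδ' : (torMat t n a b).det * ((torMat t n a b).det)⁻¹ = 1 := mul_inv_cancel₀ hδ
  generalize (torMat t n a b).det = d at hδ'
  ext
  · simp only [Prod.smul_fst, smul_eq_mul, torMat, Matrix.of_apply,
      Matrix.cons_val', Matrix.cons_val_zero, Matrix.cons_val_one, Matrix.cons_val_fin_one]
    rw [← mul_assoc, hδ']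
    ring
  · simp only [Prod.smul_snd, smul_eq_mul, torMat, Matrix.of_apply,
      Matrix.cons_val', Matrix.cons_val_zero, Matrix.cons_val_one, Matrix.cons_val_fin_one]
    rw [← mul_assoc, hδ']
    ring

/-- **The field `weyl` of `LocAx` for the family `Fof Φ`**, over any normed field. -/
theorem axWeyl_general286 (t n : k) (ψ : k → ℂ) (μ : @Measure k (borel k)) (c : ℝ)
    (G : k → ℂ) (γ : ℂ) (η : k → ℂ) (hctx : Ctx t n ψ μ) (hcov : CovP μ)
    (hE : EtaCert t n c G γ η) (hB : BorelOpP t n ψ μ γ η) (hW : WeylOpP t n ψ μ γ η)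
    (hS : RopSbP t n ψ μ γ η) (Φ : k × k → ℂ) (hΦ : IsSB Φ) :
    AxWeylP t n ψ μ γ (Fof t n ψ μ γ η Φ) := by
  intro g m ξ hadm
  obtain ⟨⟨a, b, hm⟩, hdet, hδ⟩ := hadm
  have hh : (!![1, 0; 0, (m.det)⁻¹] * g).det = 1 := by
    rw [Matrix.det_mul, Matrix.det_fin_two_of, hdet]
    field_simp
    ring
  have hwh : (!![0, 1; -1, 0] * (!![1, 0; 0, (m.det)⁻¹] * g)).det = 1 := by
    rw [Matrix.det_mul, hh, Matrix.det_fin_two_of]
    norm_num
  have hmat : !![1, 0; 0, (m.det)⁻¹] * (!![0, 1; -1, 0] * g)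
      = !![m.det, 0; 0, (m.det)⁻¹] * (!![0, 1; -1, 0] * (!![1, 0; 0, (m.det)⁻¹] * g)) := by
    rw [← Matrix.mul_assoc, ← Matrix.mul_assoc, ← Matrix.mul_assoc]
    congr 1
    ext i j
    fin_cases i <;> fin_cases j <;> simp [Matrix.mul_apply, Fin.sum_univ_two, hδ]
  have hfSB : IsSB (rOp t n ψ μ γ η (!![1, 0; 0, (m.det)⁻¹] * g) Φ) := hS _ hh Φ hΦ
  have hη : η m.det = 1 := hE.eta_norm m ⟨a, b, hm⟩ hδ
  have hL : Fof t n ψ μ γ η Φ (!![0, 1; -1, 0] * g) m ξ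
      = (((Real.sqrt ‖m.det‖)⁻¹ : ℝ) : ℂ) * (((‖m.det‖ : ℝ) : ℂ) *
          (γ * ftL t n ψ μ (rOp t n ψ μ γ η (!![1, 0; 0, (m.det)⁻¹] * g) Φ)
            (m.det • actL m⁻¹ ξ))) := by
    unfold Fof lopL
    rw [hmat, hB.diag m.det hδ _ hwh Φ hΦ, hW _ hh Φ hΦ, hη, one_mul]
  have hFSB := isSB_mul_psiB286 t n ψ μ γ η hctx.char.2.1 hB hS (m.det • actL m⁻¹ ξ)
    (rOp t n ψ μ γ η (!![1, 0; 0, (m.det)⁻¹] * g) Φ) hfSB
  have hminv : (m⁻¹).det ≠ 0 := by
    rw [Matrix.det_nonsing_inv, Ring.inverse_eq_inv']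
    exact inv_ne_zero hδ
  have hnorm : ((‖(m⁻¹).det‖⁻¹ : ℝ) : ℂ) = ((‖m.det‖ : ℝ) : ℂ) := by
    rw [Matrix.det_nonsing_inv, Ring.inverse_eq_inv', norm_inv, inv_inv]
  have hc := hcov m⁻¹ hminv _ hFSB
  have hkey : ∀ y : k × k, bfL t n (m.det • actL m⁻¹ ξ) (actL m⁻¹ y) = bfL t n ξ y := by
    intro y
    have h1 := bfL_tor_adj286 t n a b ξ (actL m⁻¹ y)
    rw [← smul_actL_inv_tor286 t n a b (hm ▸ hδ) ξ, ← hm, actL_actL_inv286 m hδ y] at h1
    exact h1.symm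
  have e : (fun y => Fof t n ψ μ γ η Φ g m y * ψ (bfL t n ξ y))
      = fun y => (((Real.sqrt ‖m.det‖)⁻¹ : ℝ) : ℂ) *
          ((fun z => rOp t n ψ μ γ η (!![1, 0; 0, (m.det)⁻¹] * g) Φ z
            * ψ (bfL t n (m.det • actL m⁻¹ ξ) z)) (actL m⁻¹ y)) := by
    funext y
    unfold Fof lopL
    simp only
    rw [hkey y]
    ring
  rw [hL, e, intL_const_mul286, hc, hnorm]
  unfold ftL
  ring

end General

/-- **Leaf A2.03.1.1.06.18 `LF54.LeafAxWeyl`.** -/
theorem leafAxWeyl286 : LF54.LeafAxWeyl := by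
  intro K _ _ v t n ψ μ c G γ η hctx hcov hE hB hW hS Φ hΦ
  exact axWeyl_general286 t n ψ μ c G γ η hctx hcov hE hB hW hS Φ hΦ


end Fermat.Agent.LT.A2.H286

end
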